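import Fermat.Agent.H35.KumNew.IdxConjD
import Fermat.Agent.H26.KumNew.DegDefs

/-!
# P-SS2, row SS2-J4a2 (IDX-CONJD, helper35): `Fermat.Agent.H26.KumNew.IndexConjDStatement`

The ranges of the two degeneracy homomorphisms `incl N q`, `conjD N q : Γ₀(N q) → Γ₀(N)` have
the same index (Fricke involution of `Γ₀(N)`, see `Fermat.Agent.H35.KumNew.index_range_conjD`).
-/

set_option autoImplicit false

namespace Fermat.Agent.H35.KumNew

/-- **IDX-CONJD** in the form of helper26's interface. -/
theorem indexConjD : Fermat.Agent.H26.KumNew.IndexConjDStatement :=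
  fun N q _ _ _ => index_range_conjD N q

end Fermat.Agent.H35.KumNew
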