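import Mathlib
import Fermat.Agent.H63.LR.Maps

/-!
# P-SS2, row SS2-J4a2 (IDX-CONJD, helper35): the two degeneracy maps have the same index

For the two degeneracy homomorphisms `incl N q, conjD N q : Γ₀(N q) → Γ₀(N)` of
`Fermat.Agent.H63.LR` we show `(conjD N q).range.index = (incl N q).range.index`.

* `(incl N q).range = {g ∈ Γ₀(N) | N q ∣ c}`, `(conjD N q).range = {g ∈ Γ₀(N) | q ∣ b}`;
* the Fricke involution `fricke N : Γ₀(N) ≃* Γ₀(N)`, `[[a, b], [c, d]] ↦ [[d, -c/N], [-N b, a]]`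
  (conjugation by `[[0, -1], [N, 0]]`), maps the first subgroup onto the second.
-/

set_option autoImplicit false

open CongruenceSubgroup Matrix.SpecialLinearGroup
open scoped MatrixGroups

namespace Fermat.Agent.H35.KumNew

open Fermat.Agent.H63.LR

/-- `N ∣ c` for the elements of `Γ₀(N)` -/
theorem dvd_of_mem_Gamma0 {N : ℕ} {γ : SL(2, ℤ)} (hγ : γ ∈ Gamma0 N) :
    (N : ℤ) ∣ (γ : Matrix (Fin 2) (Fin 2) ℤ) 1 0 :=
  (ZMod.intCast_zmod_eq_zero_iff_dvd _ _).mp (Gamma0_mem.mp hγ)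

theorem mem_Gamma0_of_dvd {N : ℕ} {γ : SL(2, ℤ)}
    (h : (N : ℤ) ∣ (γ : Matrix (Fin 2) (Fin 2) ℤ) 1 0) : γ ∈ Gamma0 N :=
  Gamma0_mem.mpr ((ZMod.intCast_zmod_eq_zero_iff_dvd _ _).mpr h)

/-- The matrix `[[d, -c/N], [-N b, a]]`. -/
def frickeMat (N : ℕ) (M : Matrix (Fin 2) (Fin 2) ℤ) : Matrix (Fin 2) (Fin 2) ℤ :=
  !![M 1 1, -(M 1 0 / N); -(N * M 0 1), M 0 0]

theorem frickeMat_det {N : ℕ} (hN : N ≠ 0) {M : Matrix (Fin 2) (Fin 2) ℤ}
    (h : (N : ℤ) ∣ M 1 0) : (frickeMat N M).det = M.det := by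
  obtain ⟨c, hc⟩ := h
  have hN' : (N : ℤ) ≠ 0 := by exact_mod_cast hN
  rw [frickeMat, Matrix.det_fin_two_of, Matrix.det_fin_two, hc,
    Int.mul_ediv_cancel_left _ hN']
  ring

theorem frickeMat_mul {N : ℕ} (hN : N ≠ 0) {M M' : Matrix (Fin 2) (Fin 2) ℤ}
    (h : (N : ℤ) ∣ M 1 0) (h' : (N : ℤ) ∣ M' 1 0) :
    frickeMat N (M * M') = frickeMat N M * frickeMat N M' := by
  obtain ⟨c, hc⟩ := h
  obtain ⟨c', hc'⟩ := h'
  have hN' : (N : ℤ) ≠ 0 := by exact_mod_cast hN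
  have e1 : (M * M') 1 0 = N * (c * M' 0 0 + M 1 1 * c') := by
    rw [Matrix.mul_apply, Fin.sum_univ_two, hc, hc']; ring
  have d1 : (M * M') 1 0 / N = c * M' 0 0 + M 1 1 * c' := by
    rw [e1, Int.mul_ediv_cancel_left _ hN']
  have d2 : M 1 0 / N = c := by rw [hc, Int.mul_ediv_cancel_left _ hN']
  have d3 : M' 1 0 / N = c' := by rw [hc', Int.mul_ediv_cancel_left _ hN']
  have m00 : (M * M') 0 0 = M 0 0 * M' 0 0 + M 0 1 * M' 1 0 := by
    rw [Matrix.mul_apply, Fin.sum_univ_two]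
  have m01 : (M * M') 0 1 = M 0 0 * M' 0 1 + M 0 1 * M' 1 1 := by
    rw [Matrix.mul_apply, Fin.sum_univ_two]
  have m11 : (M * M') 1 1 = M 1 0 * M' 0 1 + M 1 1 * M' 1 1 := by
    rw [Matrix.mul_apply, Fin.sum_univ_two]
  have key : frickeMat N M * frickeMat N M' =
      !![M 1 1 * M' 1 1 + c * (N * M' 0 1), -(M 1 1 * c') - c * M' 0 0;
         -(N * M 0 1 * M' 1 1) - M 0 0 * (N * M' 0 1), N * M 0 1 * c' + M 0 0 * M' 0 0] := by
    unfold frickeMat
    rw [d2, d3]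
    ext i j
    fin_cases i <;> fin_cases j <;> simp [Matrix.mul_apply, Fin.sum_univ_two] <;> ring
  rw [key]
  unfold frickeMat
  rw [d1, m00, m01, m11, hc, hc']
  ext i j
  fin_cases i <;> fin_cases j <;> simp <;> ring

theorem frickeMat_frickeMat {N : ℕ} (hN : N ≠ 0) {M : Matrix (Fin 2) (Fin 2) ℤ}
    (h : (N : ℤ) ∣ M 1 0) : frickeMat N (frickeMat N M) = M := by
  obtain ⟨c, hc⟩ := h
  have hN' : (N : ℤ) ≠ 0 := by exact_mod_cast hN
  have d2 : M 1 0 / N = c := by rw [hc, Int.mul_ediv_cancel_left _ hN']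
  have d4 : -((N : ℤ) * M 0 1) / N = -M 0 1 := by
    rw [show -((N : ℤ) * M 0 1) = N * (-M 0 1) by ring, Int.mul_ediv_cancel_left _ hN']
  have h1 : frickeMat N M = !![M 1 1, -c; -(N * M 0 1), M 0 0] := by
    unfold frickeMat
    rw [d2]
  rw [h1]
  unfold frickeMat
  simp only [Matrix.of_apply, Matrix.cons_val', Matrix.cons_val_zero,
    Matrix.cons_val_one, Matrix.cons_val_fin_one]
  rw [d4]
  ext i j
  fin_cases i <;> fin_cases j <;> simp [hc]

/-- The Fricke conjugate of an element of `Γ₀(N)`, as an element of `SL₂(ℤ)`. -/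
def frickeSL (N : ℕ) [NeZero N] (γ : Gamma0 N) : SL(2, ℤ) :=
  ⟨frickeMat N ((γ : SL(2, ℤ)) : Matrix (Fin 2) (Fin 2) ℤ), by
    rw [frickeMat_det (NeZero.ne N) (dvd_of_mem_Gamma0 γ.2)]; exact (γ : SL(2, ℤ)).2⟩

theorem frickeSL_mem (N : ℕ) [NeZero N] (γ : Gamma0 N) : frickeSL N γ ∈ Gamma0 N := by
  apply mem_Gamma0_of_dvd
  show (N : ℤ) ∣ (frickeMat N ((γ : SL(2, ℤ)) : Matrix (Fin 2) (Fin 2) ℤ)) 1 0
  simp only [frickeMat, Matrix.of_apply, Matrix.cons_val', Matrix.cons_val_zero,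
    Matrix.cons_val_one, Matrix.cons_val_fin_one]
  exact Dvd.dvd.neg_right (Dvd.intro _ rfl)

/-- The Fricke involution of `Γ₀(N)` as a monoid homomorphism. -/
def frickeHom (N : ℕ) [NeZero N] : Gamma0 N →* Gamma0 N where
  toFun γ := ⟨frickeSL N γ, frickeSL_mem N γ⟩
  map_one' := by
    apply Subtype.ext
    apply Subtype.ext
    show frickeMat N ((1 : SL(2, ℤ)) : Matrix (Fin 2) (Fin 2) ℤ) = 1
    ext i j
    fin_cases i <;> fin_cases j <;> simp [frickeMat]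
  map_mul' γ γ' := by
    apply Subtype.ext
    apply Subtype.ext
    show frickeMat N (((γ * γ' : Gamma0 N) : SL(2, ℤ)) : Matrix (Fin 2) (Fin 2) ℤ)
      = frickeMat N _ * frickeMat N _
    rw [Subgroup.coe_mul, Matrix.SpecialLinearGroup.coe_mul]
    exact frickeMat_mul (NeZero.ne N) (dvd_of_mem_Gamma0 γ.2) (dvd_of_mem_Gamma0 γ'.2)

theorem frickeHom_coe (N : ℕ) [NeZero N] (γ : Gamma0 N) :
    (((frickeHom N γ : Gamma0 N) : SL(2, ℤ)) : Matrix (Fin 2) (Fin 2) ℤ)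
      = frickeMat N ((γ : SL(2, ℤ)) : Matrix (Fin 2) (Fin 2) ℤ) := rfl

theorem frickeHom_frickeHom (N : ℕ) [NeZero N] (γ : Gamma0 N) :
    frickeHom N (frickeHom N γ) = γ := by
  apply Subtype.ext
  apply Subtype.ext
  rw [frickeHom_coe, frickeHom_coe]
  exact frickeMat_frickeMat (NeZero.ne N) (dvd_of_mem_Gamma0 γ.2)

theorem frickeHom_surjective (N : ℕ) [NeZero N] : Function.Surjective (frickeHom N) :=
  fun γ => ⟨frickeHom N γ, frickeHom_frickeHom N γ⟩

/-- the range of the inclusion: `N q ∣ c` -/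
theorem mem_range_incl_iff (N q : ℕ) (g : Gamma0 N) :
    g ∈ (incl N q).range ↔
      ((N : ℤ) * q) ∣ ((g : SL(2, ℤ)) : Matrix (Fin 2) (Fin 2) ℤ) 1 0 := by
  constructor
  · rintro ⟨γ, rfl⟩
    exact dvd_of_mem_Gamma0_mul γ.2
  · intro h
    have hmem : (g : SL(2, ℤ)) ∈ Gamma0 (N * q) := by
      apply mem_Gamma0_of_dvd
      push_cast
      exact h
    exact ⟨⟨(g : SL(2, ℤ)), hmem⟩, Subtype.ext rfl⟩

/-- the range of the second degeneracy map: `q ∣ b` -/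
theorem mem_range_conjD_iff (N q : ℕ) [NeZero q] (g : Gamma0 N) :
    g ∈ (conjD N q).range ↔
      (q : ℤ) ∣ ((g : SL(2, ℤ)) : Matrix (Fin 2) (Fin 2) ℤ) 0 1 := by
  have hq' : (q : ℤ) ≠ 0 := by exact_mod_cast NeZero.ne q
  constructor
  · rintro ⟨γ, rfl⟩
    rw [conjD_coe]
    simp only [conjDMat, Matrix.of_apply, Matrix.cons_val', Matrix.cons_val_zero,
      Matrix.cons_val_one, Matrix.cons_val_fin_one]
    exact Dvd.intro _ rfl
  · rintro ⟨b', hb'⟩
    obtain ⟨c', hc'⟩ := dvd_of_mem_Gamma0 g.2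
    set G : Matrix (Fin 2) (Fin 2) ℤ := ((g : SL(2, ℤ)) : Matrix (Fin 2) (Fin 2) ℤ) with hG
    have hdet : G.det = 1 := (g : SL(2, ℤ)).2
    -- the preimage `[[a, b/q], [q c, d]]`
    let P : Matrix (Fin 2) (Fin 2) ℤ := !![G 0 0, b'; q * G 1 0, G 1 1]
    have hPdet : P.det = 1 := by
      rw [← hdet, Matrix.det_fin_two_of, Matrix.det_fin_two, hb']
      ring
    have hPmem : (⟨P, hPdet⟩ : SL(2, ℤ)) ∈ Gamma0 (N * q) := by
      apply mem_Gamma0_of_dvd
      show ((N * q : ℕ) : ℤ) ∣ P 1 0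
      simp only [P, Matrix.of_apply, Matrix.cons_val', Matrix.cons_val_zero,
        Matrix.cons_val_one, Matrix.cons_val_fin_one]
      rw [hc']
      push_cast
      exact ⟨c', by ring⟩
    refine ⟨⟨⟨P, hPdet⟩, hPmem⟩, ?_⟩
    apply Subtype.ext
    apply Subtype.ext
    rw [conjD_coe]
    show conjDMat q P = G
    ext i j
    fin_cases i <;> fin_cases j <;>
      simp [conjDMat, P, hb', Int.mul_ediv_cancel_left _ hq']

/-- the Fricke involution exchanges the two ranges -/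
theorem range_incl_eq_comap (N q : ℕ) [NeZero N] [NeZero q] :
    (incl N q).range = (conjD N q).range.comap (frickeHom N) := by
  have hN' : (N : ℤ) ≠ 0 := by exact_mod_cast NeZero.ne N
  ext g
  rw [Subgroup.mem_comap, mem_range_incl_iff, mem_range_conjD_iff, frickeHom_coe]
  obtain ⟨c', hc'⟩ := dvd_of_mem_Gamma0 g.2
  simp only [frickeMat, Matrix.of_apply, Matrix.cons_val', Matrix.cons_val_zero,
    Matrix.cons_val_one, Matrix.cons_val_fin_one]
  rw [hc', Int.mul_ediv_cancel_left _ hN', dvd_neg]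
  exact mul_dvd_mul_iff_left hN'

/-- **IDX-CONJD**: the two degeneracy maps `Γ₀(N q) → Γ₀(N)` have ranges of the same index. -/
theorem index_range_conjD (N q : ℕ) [NeZero N] [NeZero q] :
    (conjD N q).range.index = (incl N q).range.index := by
  rw [range_incl_eq_comap, Subgroup.index_comap_of_surjective _ (frickeHom_surjective N)]

/-- the statement of row SS2-J4a2, literally -/
theorem indexConjD_literal :
    ∀ (N q : ℕ) [NeZero N] [NeZero q], q.Prime →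
      (Fermat.Agent.H63.LR.conjD N q).range.index
        = (Fermat.Agent.H63.LR.incl N q).range.index :=
  fun N q _ _ _ => index_range_conjD N q

end Fermat.Agent.H35.KumNew
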